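import Fermat.Agent.LT.K.Twist2
import Fermat.Agent.Oldform

/-!
# S46: removing the coefficients divisible by a prime `q`

`stripForm : S_2(Γ₀(M)) → S_2(Γ₀(N))` for `M ∣ N`, `q² ∣ N`: the form `∑_{q ∤ n} a_n(f) q^n`, obtained
by averaging over the translations `z ↦ z + u/q`.
`exists_strip` : all the primes dividing `Q`, with control of cubes.
(helper51)
-/

set_option autoImplicit false

noncomputable section

open UpperHalfPlane ModularForm ModularFormClass CongruenceSubgroup Matrix.SpecialLinearGroup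
open scoped MatrixGroups ModularForm

namespace Fermat.Agent.S46Lib

open Fermat.Agent Fermat.Agent.DS.Hecke1 Fermat.Agent.HeckeDuality Fermat.Agent.LT.K

/-- Translation by `u / q`, rational. -/
def trQ (q : ℕ) (u : ℤ) : GL (Fin 2) ℚ :=
  Matrix.GeneralLinearGroup.mkOfDetNeZero !![1, (u : ℚ) / q; 0, 1] (by
    rw [Matrix.det_fin_two_of]; norm_num)

/-- Translation by `u / q`, real. -/
def trR (q : ℕ) (u : ℤ) : GL (Fin 2) ℝ := Matrix.GeneralLinearGroup.map (Rat.castHom ℝ) (trQ q u)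

theorem trR_val (q : ℕ) (u : ℤ) :
    (trR q u : Matrix (Fin 2) (Fin 2) ℝ) = !![1, (u : ℝ) / q; 0, 1] := by
  ext i j
  fin_cases i <;> fin_cases j <;> simp [trR, trQ, Matrix.GeneralLinearGroup.mkOfDetNeZero]

theorem det_trR (q : ℕ) (u : ℤ) : ((trR q u).det : ℝ) = 1 := by
  rw [Matrix.GeneralLinearGroup.val_det_apply, trR_val, Matrix.det_fin_two_of]
  norm_num

theorem slash_trR (q : ℕ) (f : ℍ → ℂ) (k : ℤ) (u : ℤ) (τ : ℍ) :
    (f ∣[k] trR q u) τ = f (((u : ℝ) / q) +ᵥ τ) := by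
  have hσ : UpperHalfPlane.σ (trR q u) = .refl ℝ ℂ := by
    rw [UpperHalfPlane.σ, if_pos (by rw [det_trR]; norm_num)]
  have hden : UpperHalfPlane.denom (trR q u) τ = 1 := by
    rw [UpperHalfPlane.denom, trR_val]
    simp
  have hsm : trR q u • τ = ((u : ℝ) / q) +ᵥ τ := by
    ext
    rw [UpperHalfPlane.coe_smul_of_det_pos (by rw [det_trR]; norm_num), hden]
    simp only [UpperHalfPlane.num, trR_val]
    simp [add_comm]
  rw [ModularForm.slash_apply, hσ, det_trR, hden, hsm]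
  simp

variable {M N q : ℕ}

theorem exists_conj_tr (hq : q ≠ 0) (hq2 : q ^ 2 ∣ N) (hMN : M ∣ N) (u : ℤ) {γ : SL(2, ℤ)}
    (hγ : γ ∈ Gamma0 N) :
    ∃ δ : SL(2, ℤ), δ ∈ Gamma0 M ∧
      trR q u * (mapGL ℝ γ : GL (Fin 2) ℝ) = mapGL ℝ δ * trR q (u * (γ 1 1) ^ 2) := by
  have hqR : (q : ℝ) ≠ 0 := by exact_mod_cast hq
  have hN : (N : ℤ) ∣ γ 1 0 := by
    rw [Gamma0_mem] at hγ
    exact (ZMod.intCast_zmod_eq_zero_iff_dvd _ _).1 hγ
  obtain ⟨c, hc⟩ : ((q : ℤ) ^ 2) ∣ γ 1 0 := (by exact_mod_cast hq2 : ((q : ℤ) ^ 2) ∣ (N : ℤ)).trans hN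
  have hdet := det_eq γ
  obtain ⟨a, ha⟩ : ∃ a : ℤ, a = γ 0 0 := ⟨_, rfl⟩
  obtain ⟨b, hb⟩ : ∃ b : ℤ, b = γ 0 1 := ⟨_, rfl⟩
  obtain ⟨d, hd⟩ : ∃ d : ℤ, d = γ 1 1 := ⟨_, rfl⟩
  rw [← ha, ← hb, ← hd, hc] at hdet
  have hdetA : (!![a + u * q * c, b - u * d * b * q * c - u ^ 2 * d ^ 2 * c;
      q ^ 2 * c, d - u * d ^ 2 * q * c] : Matrix (Fin 2) (Fin 2) ℤ).det = 1 := by
    rw [Matrix.det_fin_two_of]
    linear_combination (1 - u * d * q * c) * hdet
  obtain ⟨δ, h00, h01, h10, h11⟩ : ∃ δ : SL(2, ℤ), δ 0 0 = a + u * q * c ∧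
      δ 0 1 = b - u * d * b * q * c - u ^ 2 * d ^ 2 * c ∧ δ 1 0 = q ^ 2 * c ∧
      δ 1 1 = d - u * d ^ 2 * q * c :=
    ⟨⟨!![a + u * q * c, b - u * d * b * q * c - u ^ 2 * d ^ 2 * c;
      q ^ 2 * c, d - u * d ^ 2 * q * c], hdetA⟩, rfl, rfl, rfl, rfl⟩
  refine ⟨δ, ?_, ?_⟩
  · rw [Gamma0_mem, ZMod.intCast_zmod_eq_zero_iff_dvd, h10, ← hc]
    exact (Int.natCast_dvd_natCast.mpr hMN).trans hN
  · have hdet' := congrArg (Int.cast : ℤ → ℝ) hdet
    push_cast at hdet'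
    have hγ' : ((mapGL ℝ γ : GL (Fin 2) ℝ) : Matrix (Fin 2) (Fin 2) ℝ) =
        !![(a : ℝ), (b : ℝ); (q : ℝ) ^ 2 * (c : ℝ), (d : ℝ)] := by
      ext i j
      fin_cases i <;> fin_cases j
      · simp [ha]
      · simp [hb]
      · simp [hc]
      · simp [hd]
    have hδ' : ((mapGL ℝ δ : GL (Fin 2) ℝ) : Matrix (Fin 2) (Fin 2) ℝ) =
        !![(a : ℝ) + u * q * c, (b : ℝ) - u * d * b * q * c - u ^ 2 * d ^ 2 * c;
          (q : ℝ) ^ 2 * (c : ℝ), (d : ℝ) - u * d ^ 2 * q * c] := by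
      ext i j
      fin_cases i <;> fin_cases j
      · simp [h00]
      · simp [h01]
      · simp [h10]
      · simp [h11]
    rw [← hd]
    apply Units.ext
    rw [Units.val_mul, Units.val_mul, trR_val, trR_val, hγ', hδ', Matrix.mul_fin_two,
      Matrix.mul_fin_two]
    congr 1
    funext i j
    fin_cases i <;> fin_cases j
    · simp; field_simp
    · simp
      field_simp
      linear_combination (-(u : ℝ) * d) * hdet'
    · simp
    · simp; field_simp; ring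

/-! ### The average -/

section avg

variable [NeZero M] [NeZero N] [NeZero q]

/-- `f(z + u/q)` depends only on `u` modulo `q` -/
theorem slash_trR_mod (f : CuspForm (Gamma0 M) 2) {u v : ℤ} (h : (q : ℤ) ∣ u - v) :
    (⇑f ∣[(2 : ℤ)] trR q u) = (⇑f ∣[(2 : ℤ)] trR q v) := by
  obtain ⟨m, hm⟩ := h
  have hq : (q : ℝ) ≠ 0 := by exact_mod_cast NeZero.ne q
  funext τ
  rw [slash_trR, slash_trR]
  have h1 : ((u : ℝ) / q) +ᵥ τ = (m : ℝ) +ᵥ (((v : ℝ) / q) +ᵥ τ) := by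
    rw [vadd_vadd]
    congr 1
    have : (u : ℝ) = v + q * m := by
      have : u = v + q * m := by linarith
      exact_mod_cast this
    rw [this]
    field_simp
    ring
  rw [h1]
  have hper := SlashInvariantForm.vAdd_apply_of_mem_strictPeriods f (h := m) (((v : ℝ) / q) +ᵥ τ) (by
    have h2 := CongruenceSubgroup.one_mem_strictPeriods_Gamma0 M
    have := AddSubgroup.zsmul_mem _ h2 m
    rwa [zsmul_one] at this)
  exact hper

/-- `∑_{u mod q} f(z + u/q)` -/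
def avgFun (q : ℕ) [NeZero q] (f : CuspForm (Gamma0 M) 2) : ℍ → ℂ :=
  ∑ u : ZMod q, (⇑f ∣[(2 : ℤ)] trR q (u.val : ℤ))

theorem slash_finset_sum {ι : Type*} (s : Finset ι) (F : ι → ℍ → ℂ) (γ : GL (Fin 2) ℝ) :
    ((∑ i ∈ s, F i) ∣[(2 : ℤ)] γ) = ∑ i ∈ s, (F i ∣[(2 : ℤ)] γ) := by
  classical
  induction s using Finset.induction_on with
  | empty => simp
  | insert a s ha ih => rw [Finset.sum_insert ha, Finset.sum_insert ha, SlashAction.add_slash, ih]

theorem avgFun_slash (hq2 : q ^ 2 ∣ N) (hMN : M ∣ N) (f : CuspForm (Gamma0 M) 2)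
    {γ : SL(2, ℤ)} (hγ : γ ∈ Gamma0 N) :
    (avgFun q f ∣[(2 : ℤ)] (mapGL ℝ γ : GL (Fin 2) ℝ)) = avgFun q f := by
  have hq := NeZero.ne q
  have hcop : IsUnit ((γ 1 1 : ℤ) : ZMod q) := by
    have hdet := det_eq γ
    have hN : (N : ℤ) ∣ γ 1 0 := by
      rw [Gamma0_mem] at hγ
      exact (ZMod.intCast_zmod_eq_zero_iff_dvd _ _).1 hγ
    have hq1 : (q : ℤ) ∣ γ 1 0 := by
      refine dvd_trans ?_ hN
      exact_mod_cast (dvd_trans (dvd_pow_self q (by norm_num)) hq2)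
    have h0 : ((γ 1 0 : ℤ) : ZMod q) = 0 := (ZMod.intCast_zmod_eq_zero_iff_dvd _ _).2 hq1
    have h1 := congrArg (Int.cast : ℤ → ZMod q) hdet
    push_cast at h1
    rw [h0, mul_zero, sub_zero] at h1
    exact IsUnit.of_mul_eq_one_right _ h1
  obtain ⟨w, hw⟩ := hcop
  rw [avgFun, slash_finset_sum]
  refine Fintype.sum_equiv ((Units.mulRight w).trans (Units.mulRight w)) _ _ fun u => ?_
  obtain ⟨δ, hδ, h1⟩ := exists_conj_tr hq hq2 hMN (u.val : ℤ) hγ
  rw [← SlashAction.slash_mul, h1, SlashAction.slash_mul]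
  have h2 : (⇑f ∣[(2 : ℤ)] (mapGL ℝ δ : GL (Fin 2) ℝ)) = ⇑f :=
    SlashInvariantFormClass.slash_action_eq f _ ⟨δ, hδ, rfl⟩
  rw [h2]
  refine slash_trR_mod f ?_
  rw [← ZMod.intCast_zmod_eq_zero_iff_dvd]
  push_cast
  simp only [Equiv.trans_apply, Units.mulRight_apply, hw, ZMod.natCast_val, ZMod.cast_id', id_eq]
  ring

theorem isZeroAt_sum {ι : Type*} (s : Finset ι) (F : ι → ℍ → ℂ) {c : OnePoint ℝ}
    (h : ∀ i ∈ s, c.IsZeroAt (F i) 2) : c.IsZeroAt (∑ i ∈ s, F i) 2 := by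
  classical
  induction s using Finset.induction_on with
  | empty =>
    intro g hg
    rw [Finset.sum_empty]
    simpa using! Filter.zero_zeroAtFilter _
  | insert a s ha ih =>
    rw [Finset.sum_insert ha]
    exact (h a (Finset.mem_insert_self _ _)).add
      (ih fun i hi => h i (Finset.mem_insert_of_mem hi))

/-- the average as a cusp form -/
def avgForm (hq2 : q ^ 2 ∣ N) (hMN : M ∣ N) (f : CuspForm (Gamma0 M) 2) :
    CuspForm (Gamma0 N) 2 where
  toFun := avgFun q f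
  slash_action_eq' := by
    rintro _ ⟨γ, hγ, rfl⟩
    exact avgFun_slash hq2 hMN f hγ
  holo' := by
    unfold avgFun
    exact MDifferentiable.sum fun u _ => (CuspFormClass.holo f).slash 2 _
  zero_at_cusps' := fun {c} hc => by
    refine isZeroAt_sum _ _ fun u _ => ?_
    refine P2MW.S_CuspFormClass_isZeroAt_heckeT.ModularForm.S06W2.isZeroAt_slash_ratCast f
      (trQ q _) ?_
    rw [Subgroup.IsArithmetic.isCusp_iff_isCusp_SL2Z] at hc ⊢
    exact hc

theorem sum_exp (n : ℕ) :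
    ∑ u : ZMod q, Complex.exp (2 * Real.pi * Complex.I * (((u.val : ℤ) : ℂ) * n / q)) =
      if q ∣ n then (q : ℂ) else 0 := by
  have hq := NeZero.ne q
  have hqC : (q : ℂ) ≠ 0 := by exact_mod_cast hq
  set ζ : ℂ := Complex.exp (2 * Real.pi * Complex.I / q) with hζ
  have hprim : IsPrimitiveRoot ζ q := Complex.isPrimitiveRoot_exp q hq
  have h1 : ∀ u : ZMod q, Complex.exp (2 * Real.pi * Complex.I * (((u.val : ℤ) : ℂ) * n / q)) =
      (ζ ^ n) ^ u.val := by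
    intro u
    rw [hζ, ← pow_mul, ← Complex.exp_nat_mul]
    congr 1
    push_cast
    field_simp
  rw [Finset.sum_congr rfl fun u _ => h1 u]
  have h2 : ∑ u : ZMod q, (ζ ^ n) ^ u.val = ∑ i ∈ Finset.range q, (ζ ^ n) ^ i := by
    refine Finset.sum_bij (fun u _ => u.val) (fun u _ => Finset.mem_range.mpr (ZMod.val_lt u))
      (fun u _ v _ h => ZMod.val_injective q h) (fun i hi => ?_) (fun _ _ => rfl)
    exact ⟨(i : ZMod q), Finset.mem_univ _, ZMod.val_cast_of_lt (Finset.mem_range.mp hi)⟩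
  rw [h2]
  split_ifs with hn
  · rw [(hprim.pow_eq_one_iff_dvd n).mpr hn]
    simp
  · have h3 : ζ ^ n ≠ 1 := fun h => hn ((hprim.pow_eq_one_iff_dvd n).mp h)
    have h4 : (ζ ^ n) ^ q = 1 := by rw [← pow_mul, mul_comm, pow_mul, hprim.pow_eq_one, one_pow]
    have h5 := geom_sum_mul (ζ ^ n) q
    rw [h4, sub_self] at h5
    exact (mul_eq_zero.mp h5).resolve_right (sub_ne_zero.mpr h3)

theorem qCoeff_avgForm (hq2 : q ^ 2 ∣ N) (hMN : M ∣ N) (f : CuspForm (Gamma0 M) 2) (n : ℕ) :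
    qCoeff ⇑(avgForm hq2 hMN f) n = if q ∣ n then (q : ℂ) * qCoeff ⇑f n else 0 := by
  have hq := NeZero.ne q
  refine qCoeff_of_hasSum (c := fun n : ℕ => if q ∣ n then (q : ℂ) * qCoeff ⇑f n else 0)
    (good0 _) (fun τ => ?_) n
  have h2 : (⇑(avgForm hq2 hMN f) : ℍ → ℂ) τ =
      ∑ u : ZMod q, f ((((u.val : ℤ) : ℝ) / q) +ᵥ τ) := by
    change avgFun q f τ = _
    rw [avgFun, Finset.sum_apply]
    exact Finset.sum_congr rfl fun u _ => slash_trR q _ 2 _ τ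
  rw [h2]
  have h1 : ∀ u : ZMod q, HasSum (fun n : ℕ => (qExpansion 1 ⇑f).coeff n *
      Function.Periodic.qParam 1 (((((u.val : ℤ) : ℝ) / q) +ᵥ τ : ℍ) : ℂ) ^ n)
      (f ((((u.val : ℤ) : ℝ) / q) +ᵥ τ)) := fun u =>
    ModularForm.hasSum_qExpansion (h := 1) f one_pos
      (CongruenceSubgroup.one_mem_strictPeriods_Gamma0 M) ((((u.val : ℤ) : ℝ) / q) +ᵥ τ)
  have h3 := hasSum_sum (s := Finset.univ) (fun u _ => h1 u)
  convert! h3 using 1
  funext m
  have h4 : ∀ u : ZMod q, (qExpansion 1 ⇑f).coeff m *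
      Function.Periodic.qParam 1 (((((u.val : ℤ) : ℝ) / q) +ᵥ τ : ℍ) : ℂ) ^ m =
      (qCoeff ⇑f m * Complex.exp (2 * Real.pi * Complex.I * m * τ)) *
        Complex.exp (2 * Real.pi * Complex.I * (((u.val : ℤ) : ℂ) * m / q)) := by
    intro u
    rw [qParam_pow, mul_assoc (qCoeff ⇑f m), ← Complex.exp_add, UpperHalfPlane.coe_vadd]
    congr 2
    push_cast
    ring
  rw [Finset.sum_congr rfl fun u _ => h4 u, ← Finset.mul_sum, sum_exp]
  split_ifs
  · ring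
  · ring

/-- **The form `∑_{q ∤ n} a_n q^n`.** -/
def stripForm (hq2 : q ^ 2 ∣ N) (hMN : M ∣ N) (f : CuspForm (Gamma0 M) 2) :
    CuspForm (Gamma0 N) 2 :=
  Oldform.incl 2 hMN f - (q : ℂ)⁻¹ • avgForm hq2 hMN f

theorem qCoeff_stripForm (hq2 : q ^ 2 ∣ N) (hMN : M ∣ N) (f : CuspForm (Gamma0 M) 2) (n : ℕ) :
    qCoeff ⇑(stripForm hq2 hMN f) n = if q ∣ n then 0 else qCoeff ⇑f n := by
  have hqC : (q : ℂ) ≠ 0 := by exact_mod_cast NeZero.ne q
  rw [stripForm, qc_sub, qc_smul, qCoeff_avgForm, Oldform.qCoeff_incl]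
  split_ifs
  · field_simp; ring
  · ring

end avg

/-! ### Several primes -/

/-- **Stripping** all the primes dividing `Q`. -/
theorem exists_strip {M : ℕ} (hM : M ≠ 0) (f : CuspForm (Gamma0 M) 2) (S : Finset ℕ)
    (hS : ∀ q ∈ S, q.Prime) :
    ∃ (N : ℕ) (g : CuspForm (Gamma0 N) 2), N ≠ 0 ∧ M ∣ N ∧ (∀ q ∈ S, q ∣ N) ∧
      (∀ q : ℕ, q.Prime → q ∣ N → q ∣ M ∨ q ∈ S) ∧
      (∀ q : ℕ, q.Prime → ¬ q ^ 3 ∣ M → ¬ q ^ 3 ∣ N) ∧
      ∀ n, qCoeff ⇑g n = if ∀ q ∈ S, ¬ q ∣ n then qCoeff ⇑f n else 0 := by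
  classical
  induction S using Finset.induction_on with
  | empty => exact ⟨M, f, hM, dvd_rfl, by simp, fun q _ h => Or.inl h, fun q _ h => h, by simp⟩
  | insert q S hqS ih =>
    obtain ⟨N, g, hN, hMN, h1, h2, h3, h4⟩ := ih fun p hp => hS p (Finset.mem_insert_of_mem hp)
    have hq : q.Prime := hS q (Finset.mem_insert_self _ _)
    have i1 : NeZero N := ⟨hN⟩
    have i2 : NeZero q := ⟨hq.ne_zero⟩
    have i3 : NeZero (Nat.lcm N (q ^ 2)) := ⟨Nat.lcm_ne_zero hN (pow_ne_zero 2 hq.ne_zero)⟩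
    have hNN : N ∣ Nat.lcm N (q ^ 2) := Nat.dvd_lcm_left _ _
    have hqN : q ^ 2 ∣ Nat.lcm N (q ^ 2) := Nat.dvd_lcm_right _ _
    refine ⟨Nat.lcm N (q ^ 2), stripForm hqN hNN g, NeZero.ne _, hMN.trans hNN, ?_, ?_, ?_, ?_⟩
    · intro p hp
      rcases Finset.mem_insert.mp hp with rfl | hp
      · exact (dvd_pow_self p (by norm_num)).trans hqN
      · exact (h1 p hp).trans hNN
    · intro p hp hpN
      have h5 : p ∣ N * q ^ 2 := hpN.trans (Nat.lcm_dvd_mul _ _)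
      rcases (Nat.Prime.dvd_mul hp).mp h5 with h6 | h6
      · rcases h2 p hp h6 with h7 | h7
        · exact Or.inl h7
        · exact Or.inr (Finset.mem_insert_of_mem h7)
      · right
        have h7 := (Nat.prime_dvd_prime_iff_eq hp hq).mp (hp.dvd_of_dvd_pow h6)
        rw [h7]
        exact Finset.mem_insert_self _ _
    · intro p hp hpM hpN
      have h5 := h3 p hp hpM
      have h6 : p ^ 3 ∣ N ∨ p ^ 3 ∣ q ^ 2 := by
        have h7 : (p ^ 3).factorization p ≤ (Nat.lcm N (q ^ 2)).factorization p :=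
          ((Nat.factorization_le_iff_dvd (pow_ne_zero 3 hp.ne_zero) (NeZero.ne _)).mpr hpN) p
        rw [Nat.factorization_lcm hN (pow_ne_zero 2 hq.ne_zero), Finsupp.sup_apply,
          hp.factorization_pow, Finsupp.single_eq_same, le_sup_iff] at h7
        rcases h7 with h7 | h7
        · left
          exact (hp.pow_dvd_iff_le_factorization hN).mpr h7
        · right
          exact (hp.pow_dvd_iff_le_factorization (pow_ne_zero 2 hq.ne_zero)).mpr h7
      rcases h6 with h6 | h6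
      · exact h5 h6
      · have h7 : p ∣ q ^ 2 := (dvd_pow_self p (by norm_num)).trans h6
        have h8 := (Nat.prime_dvd_prime_iff_eq hp hq).mp (hp.dvd_of_dvd_pow h7)
        subst h8
        have h9 := (Nat.pow_dvd_pow_iff_le_right hp.one_lt).mp h6
        omega
    · intro n
      rw [qCoeff_stripForm, h4]
      by_cases hqn : q ∣ n
      · rw [if_pos hqn, if_neg]
        intro h
        exact h q (Finset.mem_insert_self _ _) hqn
      · rw [if_neg hqn]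
        simp only [Finset.forall_mem_insert, hqn, not_false_eq_true, true_and]

end Fermat.Agent.S46Lib
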